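import Fermat.Agent.S55.H49.C0Spec

/-!
# S55 / C0, degree-1 bridges: the cochain-level core (helper68)

Generic facts about `1`-cochains and `0`-cochains of the level-constant complex
`lcComplex D A` of helper49's model (`Fermat.Agent.S55.H49`):

* `d_toCochain₁`, `d_zero_apply`: the inhomogeneous differential in degrees `1` and `0`;
* `lcValC_d`: the differential of `lcComplex` on value functions;
* `mkCyc₁`: a `1`-cocycle `c : G → A` whose cochain `g ↦ c (g 0)` is level-constant is a cocycle
  of `lcComplex D A`;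
* `ofCyc₁`: conversely, the `1`-cocycle `G → A` of a cocycle of `lcComplex D A`;
* `cls_mkCyc₁_eq_zero_iff`: the class vanishes iff `c` is a coboundary `g ↦ ρ g a - a`, provided
  every constant `0`-cochain is level-constant.
-/

set_option autoImplicit false

open CategoryTheory groupCohomology

noncomputable section

namespace Fermat.Agent.S55.H68

open Fermat.Agent.S55.H49

variable {k : Type} [CommRing k] {G : Type} [Group G]

/-- The inhomogeneous `1`-cochain `g ↦ c (g 0)` attached to a function `c : G → A`. -/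
def toCochain₁ (A : Rep.{0} k G) (c : G → A) : (Fin 1 → G) → A := fun g => c (g 0)

@[simp]
theorem toCochain₁_apply (A : Rep.{0} k G) (c : G → A) (g : Fin 1 → G) :
    toCochain₁ A c g = c (g 0) := rfl

/-- The differential of a `1`-cochain, written out. -/
theorem d_one_apply (A : Rep.{0} k G) (f : (Fin 1 → G) → A) (g : Fin 2 → G) :
    (inhomogeneousCochains.d A 1).hom f g =
      A.ρ (g 0) (f fun _ => g 1) - f (fun _ => g 0 * g 1) + f fun _ => g 0 := by
  rw [inhomogeneousCochains.d_hom_apply, Fin.sum_univ_two]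
  have e0 : (fun i : Fin 1 => g i.succ) = fun _ => g 1 := by
    funext i
    rw [Fin.fin_one_eq_zero i]
    rfl
  have e1 : Fin.contractNth (0 : Fin 2) (· * ·) g = fun _ => g 0 * g 1 := by
    funext i
    rw [Fin.fin_one_eq_zero i]
    rfl
  have e2 : Fin.contractNth (1 : Fin 2) (· * ·) g = fun _ => g 0 := by
    funext i
    rw [Fin.fin_one_eq_zero i]
    rfl
  rw [e0, e1, e2]
  simp only [Fin.val_zero, zero_add, pow_one, neg_smul, one_smul, Fin.val_one]
  norm_num
  abel

/-- The differential of `g ↦ c (g 0)`. -/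
theorem d_toCochain₁ (A : Rep.{0} k G) (c : G → A) (g : Fin 2 → G) :
    (inhomogeneousCochains.d A 1).hom (toCochain₁ A c) g =
      A.ρ (g 0) (c (g 1)) - c (g 0 * g 1) + c (g 0) :=
  d_one_apply A _ g

/-- The differential of a `0`-cochain, written out. -/
theorem d_zero_apply (A : Rep.{0} k G) (y : (Fin 0 → G) → A) (g : Fin 1 → G) :
    (inhomogeneousCochains.d A 0).hom y g = A.ρ (g 0) (y default) - y default := by
  rw [inhomogeneousCochains.d_hom_apply, Fin.sum_univ_one]
  have e0 : (fun i : Fin 0 => g i.succ) = default := Subsingleton.elim _ _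
  have e1 : Fin.contractNth (0 : Fin 1) (· * ·) g = default := Subsingleton.elim _ _
  rw [e0, e1]
  simp only [Fin.val_zero, zero_add, pow_one, neg_smul, one_smul]
  abel

/-! ### The level-constant complex in degrees `0` and `1` -/

variable (D : LevelDatum G) (A : Rep.{0} k G)

/-- The differential of `lcComplex` on value functions. -/
theorem lcValC_d (n : ℕ) (x : (lcComplex D A).X n) :
    lcValC (((lcComplex D A).d n (n + 1)).hom x) =
      (inhomogeneousCochains.d A n).hom (lcValC x) := by
  simp only [lcComplex, CochainComplex.of_d]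
  rfl

/-- An element of `(lcComplex D A).X n` from a level-constant function. -/
def mkX (n : ℕ) (f : (Fin n → G) → A) (hf : IsLC D A f) : (lcComplex D A).X n :=
  (⟨f, hf⟩ : lcCochains D A n)

@[simp]
theorem lcValC_mkX (n : ℕ) (f : (Fin n → G) → A) (hf : IsLC D A f) :
    lcValC (mkX D A n f hf) = f := rfl

theorem isLC_lcValC {n : ℕ} (x : (lcComplex D A).X n) : IsLC D A (lcValC x) :=
  (show lcCochains D A n from x).2

/-- A `1`-cocycle `c : G → A` whose cochain is level-constant, as a cocycle of `lcComplex`. -/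
def mkCyc₁ (c : G → A) (hc : c ∈ cocycles₁ A) (hlc : IsLC D A (toCochain₁ A c)) :
    cyc (lcComplex D A) 1 :=
  ⟨mkX D A 1 (toCochain₁ A c) hlc, by
    rw [mem_cyc]
    apply lcValC_injective
    rw [lcValC_d, lcValC_mkX]
    funext g
    rw [d_toCochain₁]
    exact (mem_cocycles₁_def c).1 hc (g 0) (g 1)⟩

@[simp]
theorem lcVal_mkCyc₁ (c : G → A) (hc : c ∈ cocycles₁ A) (hlc : IsLC D A (toCochain₁ A c))
    (g : Fin 1 → G) : lcVal (mkCyc₁ D A c hc hlc) g = c (g 0) := rfl

/-- The function `G → A` of a `1`-cocycle of `lcComplex`. -/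
def ofCyc₁ (z : cyc (lcComplex D A) 1) : G → A := fun g => lcVal z fun _ => g

theorem toCochain₁_ofCyc₁ (z : cyc (lcComplex D A) 1) :
    toCochain₁ A (ofCyc₁ D A z) = lcVal z := by
  funext g
  show lcVal z (fun _ => g 0) = lcVal z g
  congr 1
  funext i
  rw [Fin.fin_one_eq_zero i]

theorem ofCyc₁_mem_cocycles₁ (z : cyc (lcComplex D A) 1) : ofCyc₁ D A z ∈ cocycles₁ A := by
  rw [mem_cocycles₁_def]
  intro g h
  have h1 : lcValC (((lcComplex D A).d 1 (1 + 1)).hom z.1) = 0 := by
    rw [mem_cyc.mp z.2]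
    rfl
  rw [lcValC_d] at h1
  have h2 := congrFun h1 ![g, h]
  rw [show lcValC z.1 = toCochain₁ A (ofCyc₁ D A z) from (toCochain₁_ofCyc₁ D A z).symm,
    d_toCochain₁] at h2
  simpa using h2

/-- The class of `mkCyc₁ c` vanishes iff `c` is a coboundary, provided the constant `0`-cochains
are level-constant. -/
theorem cls_eq_zero_iff_exists (h0 : ∀ a : A, IsLC D A (fun _ : Fin 0 → G => a))
    (z : cyc (lcComplex D A) 1) :
    (cls (lcComplex D A) 1).hom z = 0 ↔ ∃ a : A, ∀ g : G, ofCyc₁ D A z g = A.ρ g a - a := by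
  rw [cls_eq_zero_iff (lcComplex D A) 0 z]
  constructor
  · rintro ⟨y, hy⟩
    refine ⟨lcValC y default, fun g => ?_⟩
    have h1 : lcValC (((lcComplex D A).d 0 (0 + 1)).hom y) = lcValC z.1 := congrArg lcValC hy
    rw [lcValC_d] at h1
    have h2 := congrFun h1 fun _ => g
    rw [d_zero_apply] at h2
    exact h2.symm
  · rintro ⟨a, ha⟩
    refine ⟨mkX D A 0 (fun _ => a) (h0 a), ?_⟩
    apply lcValC_injective
    rw [lcValC_d, lcValC_mkX]
    funext g
    rw [d_zero_apply]
    show A.ρ (g 0) a - a = lcVal z g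
    rw [← ha (g 0), ← toCochain₁_ofCyc₁ D A z]
    rfl

theorem ofCyc₁_sub (z z' : cyc (lcComplex D A) 1) (g : G) :
    ofCyc₁ D A (z - z') g = ofCyc₁ D A z g - ofCyc₁ D A z' g := rfl

/-- Two cocycles of `lcComplex` have the same class iff their functions differ by a coboundary
`g ↦ ρ g a - a`. -/
theorem cls_eq_cls_iff_exists (h0 : ∀ a : A, IsLC D A (fun _ : Fin 0 → G => a))
    (z z' : cyc (lcComplex D A) 1) :
    (cls (lcComplex D A) 1).hom z = (cls (lcComplex D A) 1).hom z' ↔
      ∃ a : A, ∀ g : G, ofCyc₁ D A z g - ofCyc₁ D A z' g = A.ρ g a - a := by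
  rw [← sub_eq_zero, ← map_sub, cls_eq_zero_iff_exists D A h0]
  rfl

/-! ### An abstract comparison lemma (no quotients) -/

/-- Two linear maps out of `V` with the same fibres, the second one surjective: the range of the
first is linearly equivalent to the target of the second, compatibly with the two maps. -/
theorem exists_equiv_of_fibres {R V X Y : Type*} [Semiring R] [AddCommMonoid V] [Module R V]
    [AddCommMonoid X] [Module R X] [AddCommMonoid Y] [Module R Y]
    (f : V →ₗ[R] X) (ψ : V →ₗ[R] Y) (hψ : Function.Surjective ψ)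
    (h : ∀ c c' : V, f c = f c' ↔ ψ c = ψ c') (P : Submodule R X)
    (hP : ∀ x : X, x ∈ P ↔ ∃ c : V, f c = x) :
    ∃ e : ↥P ≃ₗ[R] Y, ∀ (c : V) (hc : f c ∈ P), e ⟨f c, hc⟩ = ψ c := by
  classical
  have hch : ∀ x : ↥P, ∃ c : V, f c = x.1 := fun x => (hP x.1).1 x.2
  choose s hs using hch
  have key : ∀ (x : ↥P) (c : V), f c = x.1 → ψ (s x) = ψ c := fun x c hc =>
    (h _ _).1 ((hs x).trans hc.symm)
  let g : ↥P →ₗ[R] Y :=
    { toFun := fun x => ψ (s x)
      map_add' := fun x y => by
        rw [← map_add]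
        refine key _ _ ?_
        rw [map_add, hs x, hs y]
        rfl
      map_smul' := fun r x => by
        rw [RingHom.id_apply, ← map_smul]
        refine key _ _ ?_
        rw [map_smul, hs x]
        rfl }
  have hg : ∀ (c : V) (hc : f c ∈ P), g ⟨f c, hc⟩ = ψ c := fun c hc => key ⟨f c, hc⟩ c rfl
  have hinj : Function.Injective g := by
    intro x y hxy
    have h1 : f (s x) = f (s y) := (h _ _).2 hxy
    apply Subtype.ext
    rw [← hs x, ← hs y, h1]
  have hsurj : Function.Surjective g := by
    intro y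
    obtain ⟨c, rfl⟩ := hψ y
    exact ⟨⟨f c, (hP _).2 ⟨c, rfl⟩⟩, hg c _⟩
  exact ⟨LinearEquiv.ofBijective g ⟨hinj, hsurj⟩, fun c hc => hg c hc⟩

end Fermat.Agent.S55.H68

end
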