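import Fermat.Agent.S55.H68.BridgeGlobal1

/-!
# S55 / C0, leaf L7: the local comparison in degree 1 (helper68)

`bridgeLocal1All : Fermat.Agent.S55.H49.BridgeLocal1All` — for a module `A` that is smooth for the
global level datum and a level-constant global `1`-cocycle, local triviality at a prime `q ∈ S`
in the abstract `H¹` of the local group is the same as local triviality in level-constant
cohomology (both say: the restricted cocycle is `h ↦ ρ h a - a` for some `a : A`).
-/

set_option autoImplicit false

open CategoryTheory groupCohomology ExtCitation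

noncomputable section

namespace Fermat.Agent.S55.H68

open Fermat.Agent.S55.H49

variable {K : Type} [Field K] (S : Finset Nat.Primes) (A : Rep.{0} K GQ)

/-- Abstract side: the restriction of the class of a `1`-cocycle along `f : H →* G_ℚ` vanishes
iff the restricted cocycle is a coboundary. -/
theorem map_H1π_eq_zero_iff {H : Type} [Group H] (f : H →* GQ) (c : cocycles₁ A) :
    (groupCohomology.map f (𝟙 (Rep.res f A)) 1).hom ((H1π A).hom c) = 0 ↔
      ∃ a : A, ∀ h : H, (c : GQ → A) (f h) = A.ρ (f h) a - a := by
  rw [H1π_comp_map_apply, H1π_eq_zero_iff]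
  constructor
  · rintro ⟨a, ha⟩
    exact ⟨a, fun h => (congrFun ha h).symm⟩
  · rintro ⟨a, ha⟩
    exact ⟨a, funext fun h => (ha h).symm⟩

/-- Model side: the restriction of the class of a level-constant cocycle to the local
level-constant cohomology at `q` vanishes iff the restricted cocycle is a coboundary. -/
theorem resq_cls_eq_zero_iff (hA : (globalDatum S).Smooth A) (q : ↥S)
    (z : cyc (lcComplex (globalDatum S) A) 1) :
    (resq S q A 1).hom ((cls (lcComplex (globalDatum S) A) 1).hom z) = 0 ↔
      ∃ a : A, ∀ h : primeLocalGaloisGroup q.1,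
        lcVal z (fun _ => primeLocalToGlobal q.1 h) = A.ρ (primeLocalToGlobal q.1 h) a - a := by
  have h0 : ∀ a : (Rep.res (primeHom S q).φ A),
      IsLC (primeDatum S q) (Rep.res (primeHom S q).φ A)
        (fun _ : Fin 0 → primeLocalGaloisGroup q.1 => a) :=
    isLC_const_of_smooth _ _ (smooth_res (primeHom S q) hA)
  have h1 : (resq S q A 1).hom ((cls (lcComplex (globalDatum S) A) 1).hom z) =
      (cls (lcComplex (primeDatum S q) (Rep.res (primeHom S q).φ A)) 1).hom
        (cycMap (lcRes (primeHom S q) A) 1 z) :=
    homologyMap_cls (lcRes (primeHom S q) A) 1 z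
  have h2 := cls_eq_zero_iff_exists (primeDatum S q) (Rep.res (primeHom S q).φ A) h0
    (cycMap (lcRes (primeHom S q) A) 1 z)
  constructor
  · intro h
    exact h2.mp (h1.symm.trans h)
  · intro h
    exact h1.trans (h2.mpr h)

/-- **Leaf L7 of C0** for one module. -/
theorem bridgeLocal1 (hA : (globalDatum S).Smooth A) : BridgeLocal1Statement S A := by
  intro q c z hz
  rw [resq_cls_eq_zero_iff S A hA q z]
  have h1 := map_H1π_eq_zero_iff A (primeLocalToGlobal q.1) c
  have h2 : (locRes (extArithLoc S) A (Sum.inr q)).hom ((H1π A).hom c) = 0 ↔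
      ∃ a : A, ∀ h : primeLocalGaloisGroup q.1,
        (c : GQ → A) (primeLocalToGlobal q.1 h) = A.ρ (primeLocalToGlobal q.1 h) a - a := h1
  rw [h2]
  constructor
  · rintro ⟨a, ha⟩
    exact ⟨a, fun h => (hz _).trans (ha h)⟩
  · rintro ⟨a, ha⟩
    exact ⟨a, fun h => (hz _).symm.trans (ha h)⟩

/-- **Leaf L7 of C0** (`Fermat.Agent.S55.H49.BridgeLocal1All`, verbatim): the local comparison in
degree `1` for all smooth modules. -/
theorem bridgeLocal1All : BridgeLocal1All :=
  fun _ _ S A hA => bridgeLocal1 S A hA

end Fermat.Agent.S55.H68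

end
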