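import Fermat.Agent.S55.H68.Bridge1Core
import Fermat.Agent.S55.H43.Levels

/-!
# S55 / C0, leaf L6: the global bridge in degree 1 (helper68)

`bridgeGlobal1All : Fermat.Agent.S55.H49.BridgeGlobal1All` — for a module `A` that is smooth for
the global level datum, the Prelude's `continuousH1S S A` (classes in `H¹(G_ℚ, A)` of cocycles
that are constant modulo a level unramified outside `S`) is `H¹` of helper49's level-constant
complex, compatibly with cocycle representatives.
-/

set_option autoImplicit false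

open CategoryTheory groupCohomology ExtCitation

noncomputable section

namespace Fermat.Agent.S55.H68

open Fermat.Agent.S55.H49

/-- For a smooth module every constant `0`-cochain is level-constant. -/
theorem isLC_const_of_smooth {k : Type} [CommRing k] {G : Type} [Group G] (D : LevelDatum G)
    (A : Rep.{0} k G) (hA : D.Smooth A) (a : A) : IsLC D A (fun _ : Fin 0 → G => a) := by
  obtain ⟨F, hF, hN, h⟩ := hA
  exact ⟨F, hF, hN, fun _ _ _ => rfl, fun _ s hs => h s hs a⟩

variable {K : Type} [CommRing K] (S : Finset Nat.Primes) (A : Rep.{0} K GQ)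

/-- A Prelude level-constant function on `G_ℚ` with values in a smooth module gives a
level-constant `1`-cochain of the model. -/
theorem isLC_toCochain₁_of_isLevelConstantS₁ (hA : (globalDatum S).Smooth A) (c : GQ → A)
    (hc : IsLevelConstantS₁ S c) : IsLC (globalDatum S) A (toCochain₁ A c) := by
  obtain ⟨F, hF, h⟩ := hc
  obtain ⟨F₀, hF₀, -, htriv⟩ := hA
  obtain ⟨F', hF', hle, hN', -⟩ := Fermat.Agent.S55.H43.exists_normal_level (hF.sup hF₀)
  refine ⟨F', hF', hN', fun g s hs => ?_, fun g s hs => ?_⟩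
  · show c (g 0 * s 0) = c (g 0)
    exact h (g 0) (s 0)
      (IntermediateField.fixingSubgroup_antitone (le_sup_left.trans hle) (hs 0))
  · exact htriv s (IntermediateField.fixingSubgroup_antitone (le_sup_right.trans hle) hs) _

/-- The function of a level-constant `1`-cocycle of the model is level-constant in the sense of
the Prelude. -/
theorem isLevelConstantS₁_ofCyc₁ (z : cyc (lcComplex (globalDatum S) A) 1) :
    IsLevelConstantS₁ S (ofCyc₁ (globalDatum S) A z) := by
  obtain ⟨F, hF, -, h, -⟩ := isLC_lcValC (globalDatum S) A z.1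
  exact ⟨F, hF, fun g s hs => h (fun _ => g) (fun _ => s) fun _ => hs⟩

/-- The comparison map on cocycles. -/
def cocycleMap (hA : (globalDatum S).Smooth A) :
    ↥(levelCocyclesS₁ S A) →ₗ[K] ↥(cyc (lcComplex (globalDatum S) A) 1) where
  toFun c := mkCyc₁ (globalDatum S) A (c.1 : GQ → A) c.1.2
    (isLC_toCochain₁_of_isLevelConstantS₁ S A hA _ c.2)
  map_add' _ _ := lcVal_injective (funext fun _ => rfl)
  map_smul' _ _ := lcVal_injective (funext fun _ => rfl)

theorem lcVal_cocycleMap (hA : (globalDatum S).Smooth A) (c : ↥(levelCocyclesS₁ S A))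
    (g : Fin 1 → GQ) : lcVal (cocycleMap S A hA c) g = (c.1 : GQ → A) (g 0) := rfl

theorem ofCyc₁_cocycleMap (hA : (globalDatum S).Smooth A) (c : ↥(levelCocyclesS₁ S A)) :
    ofCyc₁ (globalDatum S) A (cocycleMap S A hA c) = (c.1 : GQ → A) := rfl

theorem cocycleMap_surjective (hA : (globalDatum S).Smooth A) :
    Function.Surjective (cocycleMap S A hA) := by
  intro z
  refine ⟨⟨⟨ofCyc₁ (globalDatum S) A z, ofCyc₁_mem_cocycles₁ (globalDatum S) A z⟩,
    isLevelConstantS₁_ofCyc₁ S A z⟩, lcVal_injective ?_⟩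
  funext g
  rw [lcVal_cocycleMap]
  exact congrFun (toCochain₁_ofCyc₁ (globalDatum S) A z) g

/-- The comparison map to `H¹` of the level-constant complex. -/
def classMap (hA : (globalDatum S).Smooth A) : ↥(levelCocyclesS₁ S A) →ₗ[K] HS S A 1 :=
  (cls (lcComplex (globalDatum S) A) 1).hom ∘ₗ cocycleMap S A hA

/-- The class map to the abstract `H¹`. -/
def absMap : ↥(levelCocyclesS₁ S A) →ₗ[K] H1 A :=
  (H1π A).hom ∘ₗ (levelCocyclesS₁ S A).subtype

theorem mem_continuousH1S_iff_absMap (x : H1 A) :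
    x ∈ continuousH1S S A ↔ ∃ c : ↥(levelCocyclesS₁ S A), absMap S A c = x := by
  rw [mem_continuousH1S_iff]
  constructor
  · rintro ⟨c, hc, rfl⟩
    exact ⟨⟨c, hc⟩, rfl⟩
  · rintro ⟨c, rfl⟩
    exact ⟨c.1, c.2, rfl⟩

theorem classMap_surjective (hA : (globalDatum S).Smooth A) :
    Function.Surjective (classMap S A hA) := by
  intro x
  obtain ⟨z, rfl⟩ := cls_surjective (lcComplex (globalDatum S) A) 1 x
  obtain ⟨c, rfl⟩ := cocycleMap_surjective S A hA z
  exact ⟨c, rfl⟩

theorem absMap_eq_iff (hA : (globalDatum S).Smooth A) (c c' : ↥(levelCocyclesS₁ S A)) :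
    absMap S A c = absMap S A c' ↔ classMap S A hA c = classMap S A hA c' := by
  have h1 : absMap S A c = absMap S A c' ↔
      ∃ a : A, ∀ g : GQ, (c.1 : GQ → A) g - (c'.1 : GQ → A) g = A.ρ g a - a := by
    show (H1π A).hom c.1 = (H1π A).hom c'.1 ↔ _
    rw [H1π_eq_iff]
    constructor
    · rintro ⟨a, ha⟩
      exact ⟨a, fun g => (congrFun ha g).symm⟩
    · rintro ⟨a, ha⟩
      exact ⟨a, funext fun g => (ha g).symm⟩
  have h2 : classMap S A hA c = classMap S A hA c' ↔
      ∃ a : A, ∀ g : GQ, (c.1 : GQ → A) g - (c'.1 : GQ → A) g = A.ρ g a - a :=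
    cls_eq_cls_iff_exists (globalDatum S) A (isLC_const_of_smooth _ A hA) (cocycleMap S A hA c)
      (cocycleMap S A hA c')
  rw [h1, h2]

/-- **Leaf L6 of C0** for one module. -/
theorem bridgeGlobal1 (hA : (globalDatum S).Smooth A) :
    ∃ e : ↥(continuousH1S S A) ≃ₗ[K] HS S A 1,
      (∀ c : cocycles₁ A, IsLevelConstantS₁ S (c : GQ → A) →
        ∃ z : cyc (lcComplex (globalDatum S) A) 1, ∀ g : Fin 1 → GQ, lcVal z g = c.1 (g 0)) ∧
      ∀ (c : cocycles₁ A) (hc : IsLevelConstantS₁ S (c : GQ → A))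
        (z : cyc (lcComplex (globalDatum S) A) 1), (∀ g : Fin 1 → GQ, lcVal z g = c.1 (g 0)) →
          e ⟨(H1π A).hom c, (mem_continuousH1S_iff S A _).2 ⟨c, hc, rfl⟩⟩ =
            (cls (lcComplex (globalDatum S) A) 1).hom z := by
  obtain ⟨e, he⟩ := exists_equiv_of_fibres (absMap S A) (classMap S A hA)
    (classMap_surjective S A hA) (absMap_eq_iff S A hA) (continuousH1S S A)
    (mem_continuousH1S_iff_absMap S A)
  refine ⟨e, fun c hc => ⟨cocycleMap S A hA ⟨c, hc⟩, fun g => rfl⟩, fun c hc z hz => ?_⟩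
  have h1 := he ⟨c, hc⟩ ((mem_continuousH1S_iff S A _).2 ⟨c, hc, rfl⟩)
  have h2 : cocycleMap S A hA ⟨c, hc⟩ = z :=
    lcVal_injective (funext fun g => (hz g).symm)
  rw [← h2]
  exact h1

end Fermat.Agent.S55.H68

namespace Fermat.Agent.S55.H68

open Fermat.Agent.S55.H49

/-- **Leaf L6 of C0** (`Fermat.Agent.S55.H49.BridgeGlobal1All`, verbatim): the global bridge in
degree `1` for all smooth modules. -/
theorem bridgeGlobal1All : BridgeGlobal1All :=
  fun _ _ S A hA => bridgeGlobal1 S A hA

end Fermat.Agent.S55.H68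

end
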